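import Fermat.Agent.NebLocal.ParGal
import Fermat.Agent.NebLocal.Galois
import Mathlib.Algebra.Module.CharacterModule

/-!
# Torsion classes of a vector of the lattice with coefficients

For an additive `f : O →+ ZMod n` a vector `z` gives the class with Kummer character `f ∘ z`;
this is equivariant, and these `f` detect divisibility by `n`.
-/

set_option autoImplicit false
set_option linter.style.haveILetI false
set_option linter.unusedSectionVars false
set_option synthInstance.maxHeartbeats 200000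
set_option maxHeartbeats 1000000

noncomputable section

namespace FA.Carayol

open FA.Level FA.JTorsion FA.NebLocal IsLocalRing AlgebraicCurve
open scoped MatrixGroups TensorProduct

local notation "Qb" => AlgebraicClosure ℚ

/-- Homomorphisms to `ZMod n` separate the classes modulo `n`. -/
theorem exists_hom_zmod {G : Type} [AddCommGroup G] (n : ℕ) [NeZero n] (I : AddSubgroup G)
    (hI : ∀ y : G, n • y ∈ I) {y : G} (hy : y ∉ I) : ∃ f : G →+ ZMod n, f y ≠ 0 := by
  have hn : (n : ℚ) ≠ 0 := Nat.cast_ne_zero.2 (NeZero.ne n)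
  let e : AddCircle (1 : ℚ) := (((n : ℚ)⁻¹ : ℚ) : AddCircle (1 : ℚ))
  let ι : ZMod n →+ AddCircle (1 : ℚ) := ZMod.lift n ⟨zmultiplesHom _ e, by
    rw [zmultiplesHom_apply, ← AddCircle.coe_zsmul, AddCircle.coe_eq_zero_iff]
    exact ⟨1, by simp [hn]⟩⟩
  have hι : Function.Injective ι := (ZMod.lift_injective _).2 fun m hm => by
    rw [zmultiplesHom_apply, ← AddCircle.coe_zsmul, AddCircle.coe_eq_zero_iff] at hm
    obtain ⟨j, hj⟩ := hm
    rw [zsmul_eq_mul, zsmul_eq_mul, mul_one, eq_mul_inv_iff_mul_eq₀ hn] at hj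
    rw [ZMod.intCast_zmod_eq_zero_iff_dvd]
    exact ⟨j, by rw [mul_comm]; exact_mod_cast hj.symm⟩
  obtain ⟨χ, hχ⟩ := CharacterModule.exists_character_apply_ne_zero_of_ne_zero
    (A := G ⧸ I) (a := QuotientAddGroup.mk y) (fun h => hy ((QuotientAddGroup.eq_zero_iff y).1 h))
  have hr : ∀ g : G, ∃ a : ZMod n, ι a = χ (QuotientAddGroup.mk g) := fun g => by
    obtain ⟨r, hr⟩ := QuotientAddGroup.mk_surjective (χ (QuotientAddGroup.mk g))
    have h1 : n • χ (QuotientAddGroup.mk g) = 0 := by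
      rw [← map_nsmul, ← QuotientAddGroup.mk_nsmul, (QuotientAddGroup.eq_zero_iff _).2 (hI g),
        map_zero]
    rw [← hr] at h1
    obtain ⟨j, hj⟩ := (AddCircle.coe_eq_zero_iff (p := (1 : ℚ))).1
      (show (((n • r : ℚ)) : AddCircle (1 : ℚ)) = 0 from h1)
    refine ⟨(j : ZMod n), ?_⟩
    rw [ZMod.lift_coe, ← hr, zmultiplesHom_apply, ← AddCircle.coe_zsmul]
    refine congrArg _ ?_
    rw [zsmul_eq_mul, mul_one, nsmul_eq_mul] at hj
    rw [zsmul_eq_mul, hj, mul_comm (n : ℚ), mul_inv_cancel_right₀ hn]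
  choose a ha using hr
  refine ⟨AddMonoidHom.mk' a fun g g' => hι ?_, fun h => hχ ?_⟩
  · rw [map_add, ha, ha, ha, QuotientAddGroup.mk_add, map_add]
  · rw [← ha y, show a y = 0 from h, map_zero]

variable [Algebra Qb ℂ] {O : Type} [CommRing O] {V : Lvl}

/-- `x` is the class of `z` along `f`. -/
def IsRep {n : ℕ} [NeZero n] (f : O →+ ZMod n) (z : O ⊗[ℤ] cuspLat V) (x : tors V Qb n) : Prop :=
  ∀ g, kum V Qb n x g = f (parEmb O V z g)

theorem IsRep.unique {n : ℕ} [NeZero n] {f : O →+ ZMod n} {z : O ⊗[ℤ] cuspLat V}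
    {x x' : tors V Qb n} (h : IsRep f z x) (h' : IsRep f z x') : x = x' :=
  kum_injective V Qb n (AddMonoidHom.ext fun g => (h g).trans (h' g).symm)

theorem IsRep.add {n : ℕ} [NeZero n] {f : O →+ ZMod n} {z z' : O ⊗[ℤ] cuspLat V}
    {x x' : tors V Qb n} (h : IsRep f z x) (h' : IsRep f z' x') : IsRep f (z + z') (x + x') :=
  fun g => by rw [map_add, map_add, AddMonoidHom.add_apply, AddMonoidHom.add_apply, map_add, h, h']

theorem isRep_zero {n : ℕ} [NeZero n] (f : O →+ ZMod n) : IsRep (V := V) f 0 0 := fun g => by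
  simp only [map_zero, AddMonoidHom.zero_apply]

theorem isRep_tmul {n : ℕ} [NeZero n] (f : O →+ ZMod n) (a : O) (φ : cuspLat V) :
    IsRep f (a ⊗ₜ φ) ((f a).val • latTors V Qb n φ) := fun g => by
  rw [map_nsmul, AddMonoidHom.nsmul_apply, kum_latTors, parEmb_tmul, AddMonoidHom.smul_apply,
    AddMonoidHom.comp_apply, Int.coe_castAddHom, smul_eq_mul, mul_comm a, ← zsmul_eq_mul,
    map_zsmul, zsmul_eq_mul, nsmul_eq_mul, ZMod.natCast_zmod_val, mul_comm]

/-- Every vector has a class. -/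
theorem exists_isRep {n : ℕ} [NeZero n] (f : O →+ ZMod n) (z : O ⊗[ℤ] cuspLat V) :
    ∃ x, IsRep f z x := by
  induction z with
  | zero => exact ⟨0, isRep_zero f⟩
  | add a b ha hb =>
    obtain ⟨x, hx⟩ := ha
    obtain ⟨x', hx'⟩ := hb
    exact ⟨x + x', hx.add hx'⟩
  | tmul a φ => exact ⟨_, isRep_tmul f a φ⟩

variable {p : ℕ} [Fact p.Prime] [IsDomain O] [IsDiscreteValuationRing O]
  [IsAdicComplete (maximalIdeal O) O] [CharZero O] (hpO : (p : O) ∈ maximalIdeal O)

/-- `GalRel` passes to smaller powers. -/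
theorem galRel_pow_le {σ : GalQ} {φ φ' : cuspLat V} {k K : ℕ} (hk : k ≤ K)
    (h : GalRel V (p ^ K) σ φ φ') : GalRel V (p ^ k) σ φ φ' := by
  induction K, hk using Nat.le_induction with
  | base => exact h
  | succ K _ ih =>
    exact ih ((galQ_mk_iff σ φ φ').1 (galQ_compat (p := p) V σ K φ φ' ((galQ_mk_iff σ φ φ').2 h)))

/-- A power of the maximal ideal inside a power of `p`. -/
theorem exists_pow_le_span (k : ℕ) :
    ∃ K, k ≤ K ∧ maximalIdeal O ^ K ≤ Ideal.span {((p ^ k : ℕ) : O)} := by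
  obtain ⟨ϖ, hϖ⟩ := IsDiscreteValuationRing.exists_irreducible O
  obtain ⟨j, u, hu⟩ := IsDiscreteValuationRing.eq_unit_mul_pow_irreducible
    (x := ((p ^ k : ℕ) : O)) (Nat.cast_ne_zero.2 (pow_ne_zero k (Fact.out : p.Prime).ne_zero)) hϖ
  refine ⟨max j k, le_max_right _ _, (Ideal.pow_le_pow_right (le_max_left j k)).trans ?_⟩
  rw [Irreducible.maximalIdeal_eq hϖ, Ideal.span_singleton_pow, Ideal.span_singleton_le_span_singleton,
    hu]
  exact Units.mul_left_dvd.2 dvd_rfl

/-- **The classes are equivariant.** -/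
theorem isRep_galR {k : ℕ} (f : O →+ ZMod (p ^ k)) (σ : GalQ) (z : O ⊗[ℤ] cuspLat V)
    {x x' : tors V Qb (p ^ k)} (h : IsRep f z x) (h' : IsRep f (galR hpO V σ z) x') :
    galF V σ • (x : Pic0 Qb (V.fld Qb)) = x' := by
  induction z generalizing x x' with
  | zero =>
    rw [map_zero] at h'
    rw [h.unique (isRep_zero f), h'.unique (isRep_zero f)]
    exact smul_zero _
  | add a b ha hb =>
    obtain ⟨xa, hxa⟩ := exists_isRep f a
    obtain ⟨xb, hxb⟩ := exists_isRep f b
    obtain ⟨xa', hxa'⟩ := exists_isRep f (galR hpO V σ a)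
    obtain ⟨xb', hxb'⟩ := exists_isRep f (galR hpO V σ b)
    rw [map_add] at h'
    rw [h.unique (hxa.add hxb), h'.unique (hxa'.add hxb'), AddSubgroup.coe_add,
      AddSubgroup.coe_add, smul_add, ha hxa hxa', hb hxb hxb']
  | tmul a φ =>
    obtain ⟨K, hkK, hle⟩ := exists_pow_le_span (O := O) (p := p) k
    obtain ⟨φ', hφ⟩ := exists_galRel (n := p ^ K) σ φ
    have hd : ∀ d ∈ powTop (T := ℤ) (X := cuspLat V) (maximalIdeal O) K, ∀ g,
        f (parEmb O V d g) = 0 := by
      intro d hd g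
      have key : parEmb O V d g ∈ maximalIdeal O ^ K := by
        refine Submodule.smul_induction_on hd (fun r hr u _ => ?_) fun u v hu hv => ?_
        · rw [map_smul, AddMonoidHom.smul_apply, smul_eq_mul]
          exact Ideal.mul_mem_right _ _ hr
        · rw [map_add, AddMonoidHom.add_apply]
          exact add_mem hu hv
      obtain ⟨r, hr⟩ := Ideal.mem_span_singleton'.1 (hle key)
      rw [← hr, mul_comm, ← nsmul_eq_mul, map_nsmul, nsmul_eq_mul, ZMod.natCast_self, zero_mul]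
    have h1 : IsRep f (galR hpO V σ (a ⊗ₜ φ)) ((f a).val • latTors V Qb (p ^ k) φ') := fun g => by
      have e := hd _ (Submodule.smul_mem _ a (galR_spec hpO hφ)) g
      rw [smul_sub, map_sub, AddMonoidHom.sub_apply, map_sub, sub_eq_zero] at e
      rw [show a ⊗ₜ[ℤ] φ = a • ((1 : O) ⊗ₜ[ℤ] φ) by
        rw [TensorProduct.smul_tmul', smul_eq_mul, mul_one], LinearMap.map_smul (galR hpO V σ), e,
        TensorProduct.smul_tmul', smul_eq_mul, mul_one]
      exact isRep_tmul f a φ' g
    rw [h.unique (isRep_tmul f a φ), h'.unique h1, AddSubmonoidClass.coe_nsmul,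
      AddSubmonoidClass.coe_nsmul]
    refine (map_nsmul (DistribSMul.toAddMonoidHom (Pic0 Qb (V.fld Qb)) (galF V σ)) _ _).trans ?_
    exact congrArg ((f a).val • ·) (galRel_pow_le hkK hφ).symm

end FA.Carayol

end
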