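import Fermat.Agent.Carayol.Reduction.OldKill
import Fermat.Prelude.Def_GaloisRep_LocalConditions

/-!
# A vector fixed by inertia

When inertia acts with trace `2` and determinant `1` on a system of degree two, its elements are
`1 + N` with `N² = 0` on the eigen part; these anticommute, so they have a common kernel.
-/

set_option autoImplicit false
set_option linter.style.haveILetI false
set_option linter.unusedSectionVars false
set_option maxHeartbeats 1000000

noncomputable section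

namespace FA.Carayol

open FA.Level FA.JTorsion FA.NebLocal IsLocalRing Polynomial
open scoped MatrixGroups TensorProduct

local notation "Qb" => AlgebraicClosure ℚ

section algebra

variable {R X G : Type*} [CommRing R] [IsNoetherianRing R] [AddCommGroup X] [Module R X] [Group G]

/-- Square zero `r g - 1` on a group anticommute. -/
theorem anticomm_of_sq_zero (r : G →* Module.End R X) (W : Submodule R X)
    (hW : ∀ g, ∀ w ∈ W, r g w ∈ W) (I : Subgroup G)
    (hsq : ∀ g ∈ I, ∀ w ∈ W, (r g - 1) ((r g - 1) w) = 0) {g h : G} (hg : g ∈ I) (hh : h ∈ I)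
    {w : X} (hw : w ∈ W) : (r h - 1) ((r g - 1) w) = -(r g - 1) ((r h - 1) w) := by
  set x := r g - 1 with hx
  set y := r h - 1 with hy
  have hxm : ∀ u ∈ W, x u ∈ W := fun u hu => sub_mem (hW g u hu) hu
  have hym : ∀ u ∈ W, y u ∈ W := fun u hu => sub_mem (hW h u hu) hu
  have hgh : ∀ u, (r (g * h) - 1) u = x (y u) + x u + y u := fun u => by
    simp only [hx, hy, map_mul, LinearMap.sub_apply, Module.End.one_apply, Module.End.mul_apply,
      map_sub]
    abel
  have hx2 : ∀ u ∈ W, x (x u) = 0 := hsq g hg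
  have hy2 : ∀ u ∈ W, y (y u) = 0 := hsq h hh
  have e : ∀ u ∈ W, x (y (x (y u))) + x (y (x u)) + x (y u) + y (x (y u)) + y (x u) = 0 :=
    fun u hu => by
      have := hsq _ (mul_mem hg hh) u hu
      rw [hgh, hgh u] at this
      simp only [map_add, hx2 u hu, hx2 _ (hym u hu), hy2 u hu, map_zero] at this
      rw [← this]
      abel
  have h1 : ∀ u ∈ W, x (y (x (y u))) + x (y (x u)) = 0 := fun u hu => by
    have := congrArg x (e u hu)
    simp only [map_add, map_zero, hx2 _ (hym _ (hxm _ (hym u hu))), hx2 _ (hym _ (hxm u hu)),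
      hx2 _ (hym u hu), zero_add] at this
    exact this
  have h2 : ∀ u ∈ W, x (y (x u)) = 0 := fun u hu => by
    have := h1 (y u) (hym u hu)
    rw [hy2 u hu, map_zero, map_zero, map_zero, zero_add] at this
    have h := h1 u hu
    rwa [this, zero_add] at h
  have h3 : ∀ u ∈ W, y (x (y u)) = 0 := fun u hu => by
    have := e (y u) (hym u hu)
    rw [hy2 u hu, h2 _ (hym u hu)] at this
    simpa using this
  have := e w hw
  rw [h2 _ (hym w hw), h2 w hw, h3 w hw, zero_add, zero_add, add_zero] at this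
  exact eq_neg_of_add_eq_zero_right this

/-- A finite family of anticommuting square zero operators has a common kernel. -/
theorem exists_ker_finset {A : Type*} (W : Submodule R X) (n : A → Module.End R X) (s : Finset A)
    (hn : ∀ a, ∀ w ∈ W, n a w ∈ W) (hsq : ∀ a ∈ s, ∀ w ∈ W, n a (n a w) = 0)
    (hac : ∀ a ∈ s, ∀ b ∈ s, ∀ w ∈ W, n b (n a w) = -n a (n b w))
    (hne : ∃ w ∈ W, w ≠ 0) : ∃ w ∈ W, w ≠ 0 ∧ ∀ a ∈ s, n a w = 0 := by
  classical
  induction s using Finset.induction_on with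
  | empty =>
    obtain ⟨w, hw, h0⟩ := hne
    exact ⟨w, hw, h0, by simp⟩
  | @insert a s _ ih =>
    obtain ⟨w, hw, h0, hk⟩ := ih (fun b hb => hsq b (Finset.mem_insert_of_mem hb))
      (fun b hb c hc => hac b (Finset.mem_insert_of_mem hb) c (Finset.mem_insert_of_mem hc))
    by_cases ha : n a w = 0
    · exact ⟨w, hw, h0, fun b hb => (Finset.mem_insert.1 hb).elim (fun e => e ▸ ha) (hk b)⟩
    · refine ⟨n a w, hn a w hw, ha, fun b hb => ?_⟩
      rcases Finset.mem_insert.1 hb with rfl | hb'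
      · exact hsq _ hb w hw
      · rw [hac a (Finset.mem_insert_self a s) b hb w hw, hk b hb', map_zero, neg_zero]

/-- Elements `r g` with `(r g - 1)² = 0` on a stable part fix a nonzero vector of it. -/
theorem exists_fixed_of_sq_zero [Module.Finite R X] [Module.Free R X] (r : G →* Module.End R X)
    (W : Submodule R X) (hW : ∀ g, ∀ w ∈ W, r g w ∈ W) (I : Subgroup G)
    (hsq : ∀ g ∈ I, ∀ w ∈ W, (r g - 1) ((r g - 1) w) = 0) (hne : ∃ w ∈ W, w ≠ 0) :
    ∃ w ∈ W, w ≠ 0 ∧ ∀ g ∈ I, r g w = w := by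
  classical
  let n : G → Module.End R X := fun g => r g - 1
  obtain ⟨t, ht, hspan⟩ := (Submodule.fg_span_iff_fg_span_finset_subset (R := R) (n '' (I : Set G))).1
    (IsNoetherian.noetherian _)
  obtain ⟨F, hF, rfl⟩ := Finset.subset_set_image_iff.1 ht
  obtain ⟨w, hw, h0, hk⟩ := exists_ker_finset W n F (fun g v hv => sub_mem (hW g v hv) hv)
    (fun g hg => hsq g (hF hg))
    (fun g hg h hh v hv => anticomm_of_sq_zero r W hW I hsq (hF hg) (hF hh) hv) hne
  refine ⟨w, hw, h0, fun g hg => sub_eq_zero.1 ?_⟩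
  have hmem : n g ∈ Submodule.span R (↑(F.image n) : Set (Module.End R X)) := by
    rw [← hspan]
    exact Submodule.subset_span ⟨g, hg, rfl⟩
  refine Submodule.span_induction (p := fun f _ => f w = 0) ?_ rfl
    (fun _ _ _ _ a b => by rw [LinearMap.add_apply, a, b, add_zero])
    (fun c _ _ a => by rw [LinearMap.smul_apply, a, smul_zero]) hmem
  intro f hf
  obtain ⟨g, hg, rfl⟩ := Finset.mem_image.1 (Finset.mem_coe.1 hf)
  exact hk g hg

end algebra

variable [Algebra Qb ℂ] {p : ℕ} [Fact p.Prime] {O : Type} [CommRing O] [IsDomain O]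
  [IsDiscreteValuationRing O] [IsAdicComplete (maximalIdeal O) O] [CharZero O]
  (hpO : (p : O) ∈ maximalIdeal O) (N : ℕ) [NeZero N] (S : Finset ℕ)

/-- The eigen part is stable under Galois. -/
theorem galR_eigenSub (hNS : ∀ r : ℕ, r.Prime → r ∣ N → r ∈ S) (c : ℕ → O) (σ : GalQ)
    {w : O ⊗[ℤ] cuspLat (lvlGamma0 N)} (hw : w ∈ eigenSub N S c) :
    galR hpO (lvlGamma0 N) σ w ∈ eigenSub N S c := fun ℓ _ hℓ => by
  haveI : NeZero ℓ := ⟨(Fact.out : ℓ.Prime).ne_zero⟩
  rw [← galR_tcZero hpO N ℓ (fun h => hℓ (hNS ℓ Fact.out h)), hw ℓ hℓ, map_smul]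

/-- **A vector of the eigen part fixed by inertia.** -/
theorem exists_fixed_eigen (hpS : p ∈ S) (hNS : ∀ r : ℕ, r.Prime → r ∣ N → r ∈ S)
    (χ : CuspForm.heckeAlgebra N 2 (↑S : Set ℕ) →+* O) (c : ℕ → O)
    (hc : ∀ (ℓ : ℕ) (hℓ : ℓ.Prime) (hℓN : ¬ ℓ ∣ N) (hℓS : ℓ ∉ (↑S : Set ℕ)),
      c ℓ = χ (CuspForm.heckeAlgebra.T hℓ hℓN hℓS))
    (ρ : GaloisRepAdic O)
    (hρ : ∀ (ℓ : ℕ) (hℓ : ℓ.Prime) (hℓN : ¬ ℓ ∣ N) (hℓS : ℓ ∉ (↑S : Set ℕ)),
      ∀ B : ValuationSubring Qb, B.LiesOverPrime ℓ → ∀ τ : GalQ, B.IsFrobeniusAt τ ℓ →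
        LinearMap.charpoly (ρ.ρ τ) =
          X ^ 2 - C (χ (CuspForm.heckeAlgebra.T hℓ hℓN hℓS)) * X + C ((ℓ : O)))
    {q : ℕ} (hq : ρ.IsUnipotentOnInertiaAt q) {A : ValuationSubring Qb}
    (hA : A.LiesOverPrime q) :
    ∃ w ∈ eigenSub N S c, w ≠ 0 ∧
      ∀ σ ∈ A.inertiaSubgroupIn ℚ, galR hpO (lvlGamma0 N) σ w = w := by
  haveI := (cuspLat_free_finite (lvlGamma0 N)).1
  haveI := (cuspLat_free_finite (lvlGamma0 N)).2
  let b := FA.Deform.repBasis ρ
  let m := FA.Deform.matrixOf ρ b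
  have hfrob : ∀ ℓ : ℕ, ℓ.Prime → ℓ ∉ S → ∀ B : ValuationSubring Qb, B.LiesOverPrime ℓ →
      ∀ τ : GalQ, B.IsFrobeniusAt τ ℓ → (m τ).trace = c ℓ ∧ (m τ).det = (ℓ : O) := by
    intro ℓ hℓ hℓS B hB τ hτ
    have hℓN : ¬ ℓ ∣ N := fun hd => hℓS (hNS ℓ hℓ hd)
    have hℓS' : ℓ ∉ (↑S : Set ℕ) := by simpa using hℓS
    have h := hρ ℓ hℓ hℓN hℓS' B hB τ hτ
    rw [← LinearMap.charpoly_toMatrix (ρ.ρ τ) b, ← FA.Deform.matrixOf_apply,
      Matrix.charpoly_fin_two] at h
    have h1 := congrArg (fun f => coeff f 1) h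
    have h0 := congrArg (fun f => coeff f 0) h
    simp [coeff_X, coeff_C, coeff_one] at h1 h0
    exact ⟨by rw [hc ℓ hℓ hℓN hℓS']; exact h1, h0⟩
  refine exists_fixed_of_sq_zero (galR hpO (lvlGamma0 N)) (eigenSub N S c)
    (fun g w hw => galR_eigenSub hpO N S hNS c g hw) (A.inertiaSubgroupIn ℚ) (fun σ hσ w hw => ?_)
    (exists_eigen_ne_zero N S hNS χ c hc)
  have h := hq A hA σ hσ
  rw [← LinearMap.charpoly_toMatrix (ρ.ρ σ) b, ← FA.Deform.matrixOf_apply,
    Matrix.charpoly_fin_two] at h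
  rw [show ((X : Polynomial O) - 1) ^ 2 = X ^ 2 - C 2 * X + C 1 by
    rw [map_ofNat, map_one]; ring] at h
  have h1 := congrArg (fun f => coeff f 1) h
  have h0 := congrArg (fun f => coeff f 0) h
  simp [coeff_X, coeff_C, coeff_one] at h1 h0
  have e := galR_relation hpO N S hpS hNS c m (fun n => FA.Deform.isContRep_matrixOf ρ b n) hfrob w
    (fun ℓ _ hℓ => hw ℓ hℓ) σ
  rw [show (m σ).trace = 2 from h1, show (m σ).det = 1 from h0, one_smul, two_smul] at e
  rw [LinearMap.sub_apply, LinearMap.sub_apply, Module.End.one_apply, map_sub]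
  exact Eq.trans (by simp only [Module.End.one_apply]; abel) e

end FA.Carayol

end
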