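import Fermat.Agent.Carayol.Reduction.Push
import Fermat.Agent.Carayol.Reduction.Unipotent
import Fermat.Agent.Carayol.Reduction.Reps
import Fermat.Agent.JTorsion.Point

/-!
# No unipotent inertia at a prime dividing the level to the second power

Given the vanishing of inertia-fixed classes, the representation of a newform of level `q² M'` is
not unipotent on inertia at `q`.
-/

set_option autoImplicit false
set_option linter.style.haveILetI false
set_option linter.unusedSectionVars false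
set_option synthInstance.maxHeartbeats 200000
set_option maxHeartbeats 1000000

noncomputable section

namespace FA.Carayol

open FA.Level FA.JTorsion FA.NebLocal IsLocalRing Polynomial
open FA.HeckeH1 (Corr Hom1 hv GamH Tc)
open scoped MatrixGroups TensorProduct

local notation "Qb" => AlgebraicClosure ℚ

variable {p : ℕ} [Fact p.Prime] {O : Type} [CommRing O] [IsDomain O] [IsDiscreteValuationRing O]
  [IsAdicComplete (maximalIdeal O) O] [CharZero O]

theorem false_of_unipotent (hpO : (p : O) ∈ maximalIdeal O) (q M' : ℕ) [hq : Fact q.Prime]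
    [NeZero M'] [NeZero (q * q * M')] (hqM : ¬ q ∣ M') (hqp : q ≠ p)
    {g : CuspForm (CongruenceSubgroup.Gamma0 (q * q * M')) 2} (hg : g.IsNewform)
    (S : Finset ℕ) (hpS : p ∈ S) (hNS : ∀ r : ℕ, r.Prime → r ∣ q * q * M' → r ∈ S)
    (chig : CuspForm.heckeAlgebra (q * q * M') 2 (↑S : Set ℕ) →+* ℂ)
    (hchig : ∀ (ℓ : ℕ) (hℓ : ℓ.Prime) (hℓN : ¬ ℓ ∣ q * q * M') (hℓS : ℓ ∉ (↑S : Set ℕ)),
      chig (CuspForm.heckeAlgebra.T hℓ hℓN hℓS) = ModularFormClass.qCoeff g ℓ)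
    (χ : CuspForm.heckeAlgebra (q * q * M') 2 (↑S : Set ℕ) →+* O)
    (hχ : ∀ h, χ h = 0 → chig h = 0) (ρ : GaloisRepAdic O)
    (hρ : ∀ (ℓ : ℕ) (hℓ : ℓ.Prime) (hℓN : ¬ ℓ ∣ q * q * M') (hℓS : ℓ ∉ (↑S : Set ℕ)),
      ∀ B : ValuationSubring Qb, B.LiesOverPrime ℓ → ∀ τ : GalQ, B.IsFrobeniusAt τ ℓ →
        LinearMap.charpoly (ρ.ρ τ) =
          X ^ 2 - C (χ (CuspForm.heckeAlgebra.T hℓ hℓN hℓS)) * X + C ((ℓ : O)))
    (hu : ρ.IsUnipotentOnInertiaAt q) (hFV : FixedVanish q M') : False := by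
  classical
  obtain ⟨alg⟩ := exists_algebra_qbar
  letI := alg
  let c : ℕ → O := fun ℓ =>
    if h : ℓ.Prime ∧ ¬ ℓ ∣ q * q * M' ∧ ℓ ∉ (↑S : Set ℕ) then
      χ (CuspForm.heckeAlgebra.T (k := 2) h.1 h.2.1 h.2.2) else 0
  have hc : ∀ (ℓ : ℕ) (hℓ : ℓ.Prime) (hℓN : ¬ ℓ ∣ q * q * M') (hℓS : ℓ ∉ (↑S : Set ℕ)),
      c ℓ = χ (CuspForm.heckeAlgebra.T hℓ hℓN hℓS) := fun ℓ h₁ h₂ h₃ => dif_pos ⟨h₁, h₂, h₃⟩
  obtain ⟨A, hA⟩ := FA.Deform.exists_liesOverPrime hq.out
  obtain ⟨w, hw, hw0, hfix⟩ :=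
    exists_fixed_eigen hpO (q * q * M') S hpS hNS χ c hc ρ hρ hu hA
  obtain ⟨C, hC, H⟩ := hFV hqM A hA
  haveI : NeZero q := ⟨hq.out.ne_zero⟩
  haveI : NeZero (q * M') := inferInstance
  have hMN : q * M' ∣ q * q * M' := ⟨q, by ring⟩
  have hnew : ¬ CuspForm.GoodEigensystemOccursAt g (q * M') :=
    hg.2 _ hMN fun h => hq.out.ne_one (by
      rw [mul_assoc] at h
      exact (mul_right_cancel₀ (NeZero.ne (q * M')) ((one_mul _).trans h)).symm)
  have hkill := fun (P : Corr (GamH (q * q * M') ⊤) (GamH (q * M') ⊤))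
      (hP : ∀ ℓ : ℕ, [Fact ℓ.Prime] → ¬ ℓ ∣ q * q * M' → ∀ z : Hom1 (GamH (q * q * M') ⊤) O,
        (Tc (q * M') ⊤ ℓ).act (P.act z) = P.act ((Tc (q * q * M') ⊤ ℓ).act z)) =>
    push_eigen_zero hNS χ c hc hg.1 hnew chig hchig hχ hMN P hP hw
  have htr : TracesVanish (asFun (FA.Two.toH1 O (q * q * M') w)) :=
    tracesVanish_of_push _
      (hkill _ fun ℓ _ hℓN z => splitCorr_Tc lowFam_splits lowFam_inj lowFam_conj hMN hℓN z)
      (hkill _ fun ℓ _ hℓN z => splitCorr_Tc upFam_splits upFam_inj upFam_conj hMN hℓN z)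
  set d := parEmb O (lvlGamma0 (q * q * M')) w with hd
  have has : ∀ γ : CongruenceSubgroup.Gamma0 (q * q * M'),
      asFun (FA.Two.toH1 O (q * q * M') w) γ = d (Additive.ofMul γ) := fun γ => by
    rw [asFun, FA.Two.toH1_apply, Corr.res_act]
    rfl
  have key : ∀ (γ : (lvlGamma0 (q * q * M')).grp) (k : ℕ),
      C • d (Additive.ofMul γ) ∈ Ideal.span {((p ^ k : ℕ) : O)} := by
    intro γ k
    by_contra hy
    obtain ⟨f, hf⟩ := exists_hom_zmod (p ^ k) (Ideal.span {((p ^ k : ℕ) : O)}).toAddSubgroup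
      (fun y => by
        rw [Submodule.mem_toAddSubgroup, nsmul_eq_mul]
        exact Ideal.mul_mem_right _ _ (Ideal.subset_span rfl)) hy
    obtain ⟨x, hx⟩ := exists_isRep f w
    have h0 : C • x = 0 := by
      refine H (p ^ k) (fun h => hqp ((Nat.prime_dvd_prime_iff_eq hq.out Fact.out).1
        (hq.out.dvd_of_dvd_pow h))) x (fun σ hσ => ?_) ?_
      · exact isRep_galR hpO f σ w hx (by rw [hfix σ hσ]; exact hx)
      · intro δ
        have e : ∀ η : CongruenceSubgroup.Gamma (2 * q * M'),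
            resTau (fun γ => kumFun x γ) η =
              f (resTau (asFun (FA.Two.toH1 O (q * q * M') w)) η) := fun η => by
          rw [resTau, resTau, has]
          exact hx _
        simp only [e, ← map_sum, (htr δ).1, (htr δ).2, map_zero, and_self]
    have h1 := DFunLike.congr_fun (congrArg (kum (lvlGamma0 (q * q * M')) Qb (p ^ k)) h0)
      (Additive.ofMul γ)
    rw [map_nsmul, AddMonoidHom.nsmul_apply, hx, ← map_nsmul, map_zero] at h1
    exact hf h1
  refine hw0 (parEmb_injective ?_)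
  rw [map_zero]
  refine AddMonoidHom.ext fun γ => ?_
  have h0 : C • d γ = 0 := IsHausdorff.haus (I := maximalIdeal O) inferInstance _ fun k => by
    rw [SModEq.zero, smul_eq_mul, Ideal.mul_top]
    refine Ideal.span_le.2 ?_ (key γ.toMul k)
    rw [Set.singleton_subset_iff, Nat.cast_pow]
    exact Ideal.pow_mem_pow hpO k
  rw [nsmul_eq_mul, mul_eq_zero, Nat.cast_eq_zero] at h0
  exact h0.resolve_left hC

/-- **The statement of S36, given the vanishing of fixed classes.** -/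
theorem exists_galoisRep_not_unipotent_of_fixedVanish
    (hFV : ∀ (q M' : ℕ) [Fact q.Prime] [NeZero M'], FixedVanish q M')
    {M : ℕ} [NeZero M] {g : CuspForm (CongruenceSubgroup.Gamma0 M) 2} (hg : g.IsNewform)
    (lam : ℕ) [Fact lam.Prime] (S : Finset ℕ)
    (O' : Type) [CommRing O'] [IsDomain O'] [IsDiscreteValuationRing O']
    [IsAdicComplete (maximalIdeal O') O'] [Finite (ResidueField O')]
    [CharZero O'] (hlamO' : (lam : O') ∈ maximalIdeal O')
    (chig : CuspForm.heckeAlgebra M 2 (↑S : Set ℕ) →+* ℂ)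
    (hchig : ∀ (ℓ : ℕ) (hℓ : ℓ.Prime) (hℓM : ¬ ℓ ∣ M) (hℓS : ℓ ∉ (↑S : Set ℕ)),
      chig (CuspForm.heckeAlgebra.T hℓ hℓM hℓS) = ModularFormClass.qCoeff g ℓ)
    (iota : chig.range →+* O')
    (hlamS : lam ∈ S) (hMS : ∀ q : ℕ, q.Prime → q ∣ M → q ∈ S) :
    ∃ (O'' : Type) (_ : CommRing O'') (_ : IsDomain O'') (_ : IsDiscreteValuationRing O'')
      (_ : IsAdicComplete (maximalIdeal O'') O'') (_ : Finite (ResidueField O''))
      (_ : CharZero O'') (_ : Algebra O' O'') (_ : Module.Finite O' O'')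
      (_ : IsLocalHom (algebraMap O' O'')),
      Function.Injective (algebraMap O' O'') ∧
      ∃ ρ : GaloisRepAdic O'',
        (∀ (ℓ : ℕ) (hℓ : ℓ.Prime) (hℓM : ¬ ℓ ∣ M) (hℓS : ℓ ∉ (↑S : Set ℕ)),
          ∀ A : ValuationSubring Qb, A.LiesOverPrime ℓ →
            ∀ σ : GalQ, A.IsFrobeniusAt σ ℓ →
              LinearMap.charpoly (ρ.ρ σ) =
                X ^ 2 - Polynomial.C (algebraMap O' O'' ((iota.comp chig.rangeRestrict)
                  (CuspForm.heckeAlgebra.T hℓ hℓM hℓS))) * X + Polynomial.C ((ℓ : O''))) ∧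
        (∀ q : ℕ, q.Prime → q ≠ lam → M.factorization q = 2 → ¬ ρ.IsUnipotentOnInertiaAt q) := by
  haveI : Module.Finite ℤ (CuspForm.heckeAlgebra M 2 (↑S : Set ℕ)) :=
    FA.Period.moduleFinite_heckeAlgebra M 2 _
  obtain ⟨O'', i₁, i₂, i₃, i₄, i₅, i₆, i₇, i₈, i₉, hinj, ρ, hρ, -⟩ :=
    exists_galoisRep_of_point lam M (goodRed_all M) S hlamS O' hlamO'
      (iota.comp chig.rangeRestrict)
  refine ⟨O'', i₁, i₂, i₃, i₄, i₅, i₆, i₇, i₈, i₉, hinj, ρ, hρ, ?_⟩
  intro q hq hqlam hfac hu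
  have h2 := (hq.pow_dvd_iff_le_factorization (NeZero.ne M)).2 hfac.ge
  have h3 : ¬ q ^ 3 ∣ M := fun h => by
    have := (hq.pow_dvd_iff_le_factorization (NeZero.ne M)).1 h
    omega
  obtain ⟨M', hM'⟩ := h2
  rw [sq] at hM'
  subst hM'
  haveI : Fact q.Prime := ⟨hq⟩
  haveI : NeZero M' := ⟨right_ne_zero_of_mul (NeZero.ne (q * q * M'))⟩
  have hlamT : (lam : O'') ∈ maximalIdeal O'' := by
    rw [← map_natCast (algebraMap O' O'')]
    exact map_nonunit (algebraMap O' O'') _ hlamO'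
  refine false_of_unipotent hlamT q M' (fun hd => h3 ?_) hqlam hg S hlamS hMS chig hchig
    ((algebraMap O' O'').comp (iota.comp chig.rangeRestrict)) (fun h h0 => ?_) ρ hρ hu (hFV q M')
  · rw [pow_succ, sq]
    exact mul_dvd_mul_left _ hd
  · have h1 := FA.ModField.range_hom_injective chig iota
      (((map_eq_zero_iff _ hinj).1 h0).trans (map_zero iota).symm)
    exact congrArg Subtype.val h1

end FA.Carayol

end
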