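import Fermat.Agent.Two.BaseBridge
import Fermat.Agent.ModField.Semistable.NewformFrobenius
import Fermat.Agent.HeckeH1.Eigenvector

/-!
# The eigen part of the lattice and the maps to lower levels

An eigen vector exists; correspondences to a lower level commuting with the good operators kill
the eigen part of a system which is new.
-/

set_option autoImplicit false
set_option linter.style.haveILetI false
set_option linter.unusedSectionVars false
set_option synthInstance.maxHeartbeats 200000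
set_option maxHeartbeats 1000000

noncomputable section

namespace FA.Carayol

open FA.Level FA.JTorsion FA.NebLocal
open FA.HeckeH1 (Corr Hom1 hv GamH Tc)
open FA.Two (toH1 latT LatO)
open FA.ModField (HFull pairRing inclFull pairT)
open scoped MatrixGroups TensorProduct Matrix

local notation "Qb" => AlgebraicClosure ℚ

variable [Algebra Qb ℂ] {O : Type} [CommRing O] (N : ℕ) [NeZero N] (S : Finset ℕ)

/-- The vectors with eigenvalues `c` outside `S`. -/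
def eigenSub (c : ℕ → O) : Submodule O (O ⊗[ℤ] cuspLat (lvlGamma0 N)) where
  carrier := {w | ∀ ℓ : ℕ, [Fact ℓ.Prime] → ℓ ∉ S → tensC O (tcZero N ℓ) w = c ℓ • w}
  add_mem' := fun {a b} ha hb ℓ _ hℓ => by rw [map_add, ha ℓ hℓ, hb ℓ hℓ, smul_add]
  zero_mem' := fun ℓ _ _ => by rw [map_zero, smul_zero]
  smul_mem' := fun r a ha ℓ _ hℓ => by rw [map_smul, ha ℓ hℓ, smul_comm]

theorem mem_eigenSub {c : ℕ → O} {w : O ⊗[ℤ] cuspLat (lvlGamma0 N)} :
    w ∈ eigenSub N S c ↔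
      ∀ ℓ : ℕ, [Fact ℓ.Prime] → ℓ ∉ S → tensC O (tcZero N ℓ) w = c ℓ • w := Iff.rfl

variable [IsDomain O] [CharZero O]

/-- Eigen columns of the matrix give eigen vectors of the extended operator. -/
theorem baseChange_eigen {L : Type} [AddCommGroup L] {ι : Type} [Fintype ι] [DecidableEq ι]
    (b : Module.Basis ι ℤ L) (e : Module.End ℤ L) (v : ι → O) (a : O)
    (hv : (LinearMap.toMatrixAlgEquiv b e).map (algebraMap ℤ O) *ᵥ v = a • v) :
    LinearMap.baseChange O e ((b.baseChange O).equivFun.symm v) =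
      a • (b.baseChange O).equivFun.symm v := by
  have h1 : ∀ i, b.baseChange O i = (1 : O) ⊗ₜ[ℤ] b i := fun i =>
    Module.Basis.baseChange_apply _ _ i
  rw [← map_smul, ← hv, Module.Basis.equivFun_symm_apply, Module.Basis.equivFun_symm_apply,
    map_sum]
  simp only [map_smul, h1, LinearMap.baseChange_tmul]
  refine Eq.trans (Finset.sum_congr rfl fun i _ => ?_)
    (Finset.sum_comm.trans (Finset.sum_congr rfl fun j _ => ?_))
      (b := ∑ i, ∑ j, ((algebraMap ℤ O) (LinearMap.toMatrixAlgEquiv b e j i) * v i) •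
        ((1 : O) ⊗ₜ[ℤ] b j))
  · conv_lhs => rw [← b.sum_repr (e (b i)), TensorProduct.tmul_sum, Finset.smul_sum]
    refine Finset.sum_congr rfl fun j _ => ?_
    rw [TensorProduct.tmul_smul, ← Int.cast_smul_eq_zsmul O, smul_smul, mul_comm, eq_intCast,
      LinearMap.toMatrixAlgEquiv_apply]
  · rw [← Finset.sum_smul]
    rfl

/-- A character of the Hecke algebra has an eigen vector. -/
theorem exists_eigen_ne_zero (hNS : ∀ r : ℕ, r.Prime → r ∣ N → r ∈ S)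
    (χ : CuspForm.heckeAlgebra N 2 (↑S : Set ℕ) →+* O) (c : ℕ → O)
    (hc : ∀ (ℓ : ℕ) (hℓ : ℓ.Prime) (hℓN : ¬ ℓ ∣ N) (hℓS : ℓ ∉ (↑S : Set ℕ)),
      c ℓ = χ (CuspForm.heckeAlgebra.T hℓ hℓN hℓS)) :
    ∃ w ∈ eigenSub N S c, w ≠ 0 := by
  classical
  haveI := (cuspLat_free_finite (lvlGamma0 N)).1
  haveI := (cuspLat_free_finite (lvlGamma0 N)).2
  haveI : Module.IsTorsionFree ℤ O := Module.isTorsionFree_iff_algebraMap_injective.mpr
    (fun a b h => by simpa using h)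
  let b := Module.Free.chooseBasis ℤ (cuspLat (lvlGamma0 N))
  let R : CuspForm.heckeAlgebra N 2 (↑S : Set ℕ) →ₐ[ℤ] Matrix _ _ ℤ :=
    ((LinearMap.toMatrixAlgEquiv b).toRingEquiv.toRingHom.comp
      (latRep N (↑S : Set ℕ))).toIntAlgHom
  obtain ⟨v, hv0, hv⟩ := FA.HeckeH1.exists_common_eigenvector R χ.toIntAlgHom fun a ha => by
    have h : latRep N (↑S : Set ℕ) a = 0 :=
      (LinearMap.toMatrixAlgEquiv b).injective (by rw [map_zero]; exact ha)
    rw [latRep_injective N (↑S : Set ℕ) (h.trans (map_zero _).symm), map_zero]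
  let B := b.baseChange O
  refine ⟨B.equivFun.symm v, fun ℓ _ hℓ => ?_, fun h => hv0 ?_⟩
  · haveI : NeZero ℓ := ⟨(Fact.out : ℓ.Prime).ne_zero⟩
    have hℓN : ¬ ℓ ∣ N := fun h => hℓ (hNS ℓ Fact.out h)
    have hℓS : ℓ ∉ (↑S : Set ℕ) := by simpa using hℓ
    set T := CuspForm.heckeAlgebra.T (k := 2) (Fact.out : ℓ.Prime) hℓN hℓS
    have e : tensC O (tcZero N ℓ) = LinearMap.baseChange O (latRep N (↑S : Set ℕ) T) := by
      refine TensorProduct.AlgebraTensorModule.ext fun a φ => ?_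
      rw [tensC_tmul, latC_tcZero N ℓ hℓN, LinearMap.baseChange_tmul, latRep_T N Fact.out hℓN hℓS]
    rw [e, hc ℓ Fact.out hℓN hℓS]
    exact baseChange_eigen b _ v _ (hv T)
  · rw [← B.equivFun.apply_symm_apply v, h, map_zero]

variable {N S}
variable {M₁ : ℕ} [NeZero M₁]

/-- A correspondence of levels in the form of the lattice. -/
def pushLvl (P : Corr (GamH N ⊤) (GamH M₁ ⊤)) : Corr (lvlGamma0 N).grp (lvlGamma0 M₁).grp :=
  ((Corr.res (gamH_top_eq N).le).comp P).comp (Corr.res (gamH_top_eq M₁).ge)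

theorem toH1_pushLvl (P : Corr (GamH N ⊤) (GamH M₁ ⊤)) (z : LatO O N) :
    toH1 O M₁ (tensC O (pushLvl P) z) = P.act (toH1 O N z) := by
  rw [FA.Two.toH1_apply, parEmb_tensC, pushLvl, Corr.comp_act, Corr.comp_act, FA.Two.res_le_ge,
    FA.Two.toH1_apply]

theorem toH1_push_T (P : Corr (GamH N ⊤) (GamH M₁ ⊤))
    (hP : ∀ ℓ : ℕ, [Fact ℓ.Prime] → ¬ ℓ ∣ N → ∀ z : Hom1 (GamH N ⊤) O,
      (Tc M₁ ⊤ ℓ).act (P.act z) = P.act ((Tc N ⊤ ℓ).act z))
    (hMN : M₁ ∣ N) {t : HFull N × HFull M₁} (ht : t ∈ pairRing N M₁ hMN S) (z : LatO O N) :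
    tensC O (pushLvl P) (latT O N t.1 z) = latT O M₁ t.2 (tensC O (pushLvl P) z) := by
  induction ht using Subring.closure_induction generalizing z with
  | mem x hx =>
    obtain ⟨ℓ, hℓ, hℓN, -, rfl⟩ := hx
    haveI : Fact ℓ.Prime := ⟨hℓ⟩
    haveI : NeZero ℓ := ⟨hℓ.ne_zero⟩
    refine FA.Two.toH1_injective O M₁ ?_
    rw [toH1_pushLvl]
    show P.act (toH1 O N (latT O N (CuspForm.heckeAlgebra.T (k := 2) hℓ hℓN (Set.notMem_empty _)) z)) =
      toH1 O M₁ (latT O M₁ (CuspForm.heckeAlgebra.T (k := 2) hℓ (fun h => hℓN (h.trans hMN))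
        (Set.notMem_empty _)) (tensC O (pushLvl P) z))
    rw [FA.Two.toH1_latT O N hℓN, FA.Two.toH1_latT O M₁ fun h => hℓN (h.trans hMN), toH1_pushLvl]
    exact (hP ℓ hℓN _).symm
  | zero =>
    simp only [Prod.fst_zero, Prod.snd_zero, map_zero, LinearMap.zero_apply]
  | one => simp only [Prod.fst_one, Prod.snd_one, map_one, Module.End.one_apply]
  | add x y _ _ hx hy =>
    simp only [Prod.fst_add, Prod.snd_add, map_add, LinearMap.add_apply, hx, hy]
  | neg x _ hx => simp only [Prod.fst_neg, Prod.snd_neg, map_neg, LinearMap.neg_apply, hx]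
  | mul x y _ _ hx hy =>
    simp only [Prod.fst_mul, Prod.snd_mul, map_mul, Module.End.mul_apply, hx, hy]

variable (hNS : ∀ r : ℕ, r.Prime → r ∣ N → r ∈ S)
  (χ : CuspForm.heckeAlgebra N 2 (↑S : Set ℕ) →+* O) (c : ℕ → O)
  (hc : ∀ (ℓ : ℕ) (hℓ : ℓ.Prime) (hℓN : ¬ ℓ ∣ N) (hℓS : ℓ ∉ (↑S : Set ℕ)),
    c ℓ = χ (CuspForm.heckeAlgebra.T hℓ hℓN hℓS))

include hc in
/-- The anemic algebra acts on the eigen part by the character. -/
theorem latT_eigen {hMN : M₁ ∣ N} {t : HFull N × HFull M₁} (ht : t ∈ pairRing N M₁ hMN S) :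
    ∃ h, inclFull S h = t.1 ∧ ∀ w ∈ eigenSub N S c, latT O N t.1 w = χ h • w := by
  induction ht using Subring.closure_induction with
  | mem x hx =>
    obtain ⟨ℓ, hℓ, hℓN, hS, rfl⟩ := hx
    haveI : Fact ℓ.Prime := ⟨hℓ⟩
    haveI : NeZero ℓ := ⟨hℓ.ne_zero⟩
    have hℓS : ℓ ∉ (↑S : Set ℕ) := by simpa using hS
    refine ⟨_, FA.ModField.inclFull_T S hℓ hℓN hℓS, fun w hw => ?_⟩
    show latT O N (CuspForm.heckeAlgebra.T (k := 2) hℓ hℓN (Set.notMem_empty _)) w = _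
    rw [FA.Two.latT_T O N hℓN, hw ℓ hS, hc ℓ hℓ hℓN hℓS]
  | zero => exact ⟨0, map_zero _, fun w _ => by simp⟩
  | one => exact ⟨1, map_one _, fun w _ => by simp⟩
  | add x y _ _ hx hy =>
    obtain ⟨a, ha, ha'⟩ := hx
    obtain ⟨b, hb, hb'⟩ := hy
    exact ⟨a + b, by rw [map_add, ha, hb]; rfl, fun w hw => by
      rw [Prod.fst_add, map_add, LinearMap.add_apply, ha' w hw, hb' w hw, map_add, add_smul]⟩
  | neg x _ hx =>
    obtain ⟨a, ha, ha'⟩ := hx
    exact ⟨-a, by rw [map_neg, ha]; rfl, fun w hw => by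
      rw [Prod.fst_neg, map_neg, LinearMap.neg_apply, ha' w hw, map_neg, neg_smul]⟩
  | mul x y _ _ hx hy =>
    obtain ⟨a, ha, ha'⟩ := hx
    obtain ⟨b, hb, hb'⟩ := hy
    exact ⟨a * b, by rw [map_mul, ha, hb]; rfl, fun w hw => by
      rw [Prod.fst_mul, map_mul, Module.End.mul_apply, hb' w hw, map_smul, ha' w hw, map_mul,
        smul_smul, mul_comm (χ b)]⟩

include hNS hc in
/-- **A correspondence to a lower level kills a new eigen system.** -/
theorem push_eigen_zero {g : CuspForm (CongruenceSubgroup.Gamma0 N) 2}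
    (hg : g.IsNormalizedEigenform) (hnew : ¬ CuspForm.GoodEigensystemOccursAt g M₁)
    (chig : CuspForm.heckeAlgebra N 2 (↑S : Set ℕ) →+* ℂ)
    (hchig : ∀ (ℓ : ℕ) (hℓ : ℓ.Prime) (hℓN : ¬ ℓ ∣ N) (hℓS : ℓ ∉ (↑S : Set ℕ)),
      chig (CuspForm.heckeAlgebra.T hℓ hℓN hℓS) = ModularFormClass.qCoeff g ℓ)
    (hχ : ∀ h, χ h = 0 → chig h = 0) (hMN : M₁ ∣ N) (P : Corr (GamH N ⊤) (GamH M₁ ⊤))
    (hP : ∀ ℓ : ℕ, [Fact ℓ.Prime] → ¬ ℓ ∣ N → ∀ z : Hom1 (GamH N ⊤) O,
      (Tc M₁ ⊤ ℓ).act (P.act z) = P.act ((Tc N ⊤ ℓ).act z))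
    {w : LatO O N} (hw : w ∈ eigenSub N S c) : P.act (toH1 O N w) = 0 := by
  haveI := (cuspLat_free_finite (lvlGamma0 M₁)).1
  obtain ⟨ψ₀, hψ₀⟩ := exists_eigenChar (∅ : Set ℕ) hg
  let ψ : HFull N →+* ℂ := (algebraMap (integralClosure ℤ ℂ) ℂ).comp ψ₀
  have hψ : ∀ (ℓ : ℕ) (hℓ : ℓ.Prime) (hℓN : ¬ ℓ ∣ N),
      ψ (CuspForm.heckeAlgebra.T hℓ hℓN (Set.notMem_empty _)) = ModularFormClass.qCoeff g ℓ :=
    fun ℓ hℓ hℓN => hψ₀ ℓ hℓ hℓN (Set.notMem_empty _)
  obtain ⟨t, ht, ht2, htψ⟩ := FA.ModField.exists_pair_killer N M₁ hMN hg hnew ψ hψ S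
  obtain ⟨h, hh, hh'⟩ := latT_eigen χ c hc ht
  have hne : χ h ≠ 0 := fun h0 => htψ (by
    rw [← hh, FA.ModField.eigenChar_inclFull S hNS chig hchig ψ hψ, hχ h h0])
  have e := toH1_push_T P hP hMN ht w
  rw [hh' w hw, ht2, map_zero, LinearMap.zero_apply, map_smul, smul_eq_zero] at e
  rw [← toH1_pushLvl, e.resolve_left hne, map_zero]

end FA.Carayol

end
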