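import Fermat.Agent.Carayol.Defs
import Fermat.Agent.NebLocal.Base
import Fermat.Agent.HeckeH1.StepSquare

/-!
# The two traces from level `q² M'` to level `q M'`

They commute with the good Hecke correspondences, and on `Γ(2 q M')` they are the sums of
conjugates in `TracesVanish`.
-/

set_option autoImplicit false
set_option linter.unusedSectionVars false
set_option linter.style.haveILetI false

noncomputable section

namespace FA.Carayol

open Matrix CongruenceSubgroup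
open FA.HeckeH1 (Corr Hom1 hv GamH Tc gl glQ rep RIdx Dl MatZ)
open scoped MatrixGroups

local notation "G0[" M "]" => FA.HeckeH1.GamH M (⊤ : Subgroup (ZMod M)ˣ)

/-- Membership in `Dl` for determinants prime to the level. -/
theorem dl_top_mk {N : ℕ} {n : ℤ} (hn : IsUnit (n : ZMod N)) {X : MatZ} (hd : X.det = n)
    (hc : (N : ℤ) ∣ X 1 0) : X ∈ Dl N (⊤ : Subgroup (ZMod N)ˣ) n := by
  have h1 : (X 0 0 : ZMod N) * (X 1 1 : ZMod N) = (n : ZMod N) := by
    rw [← hd, det_fin_two, Int.cast_sub, Int.cast_mul, Int.cast_mul,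
      (ZMod.intCast_zmod_eq_zero_iff_dvd _ _).2 hc, mul_zero, sub_zero]
  obtain ⟨u, hu⟩ : IsUnit (X 0 0 : ZMod N) := isUnit_of_mul_isUnit_left (h1 ▸ hn)
  exact ⟨hd, hc, u, Subgroup.mem_top u, hu⟩

section generic

variable {N M q : ℕ}

/-- A family of matrices splitting `Δ_n(M)` over `Δ_n(N)`. -/
def Splits (N M : ℕ) (α : Fin q → GL (Fin 2) ℚ) : Prop :=
  ∀ n : ℤ, IsUnit (n : ZMod N) → ∀ X ∈ Dl M (⊤ : Subgroup (ZMod M)ˣ) n, ∀ b : Fin q,
    ∃ (s : Fin q) (Y : MatZ), Y ∈ Dl N (⊤ : Subgroup (ZMod N)ˣ) n ∧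
      α b * gl X = gl Y * α s

/-- The matrices lie in distinct classes. -/
def ClassInj (N : ℕ) (α : Fin q → GL (Fin 2) ℚ) : Prop :=
  ∀ b b' : Fin q, ∀ h ∈ G0[N], α b = glQ h * α b' → b = b'

/-- Conjugates of `Γ₀(N)` are integral. -/
def ConjInt (N : ℕ) (α : Fin q → GL (Fin 2) ℚ) : Prop :=
  ∀ b b' : Fin q, ∀ h ∈ G0[N], ∃ g : SL(2, ℤ), glQ h * α b' = α b * glQ g

theorem exists_perm_of_splits {α : Fin q → GL (Fin 2) ℚ} (hs : Splits N M α)
    (hi : ClassInj N α) (γ : G0[M]) :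
    ∃ π : Equiv.Perm (Fin q), ∀ i, ∃ h : G0[N], α i * glQ γ = glQ h * α (π i) := by
  have h1 : ∀ b, ∃ s : Fin q, ∃ h : G0[N], α b * glQ γ = glQ h * α s := fun b => by
    obtain ⟨s, Y, hY, e⟩ := hs 1 (by simp) γ.1.1 γ.2 b
    refine ⟨s, ⟨⟨Y, hY.1⟩, hY⟩, ?_⟩
    rw [← FA.HeckeH1.gl_coe, ← FA.HeckeH1.gl_coe]
    exact e
  choose s h e using h1
  have hinj : Function.Injective s := fun b b' hbb => by
    refine hi b b' _ (h b * (h b')⁻¹).2 ?_
    apply mul_right_cancel (b := glQ (γ : SL(2, ℤ)))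
    rw [mul_assoc, e b', e b, hbb, Subgroup.coe_mul, map_mul, Subgroup.coe_inv, map_inv]
    group
  exact ⟨Equiv.ofBijective s (Finite.injective_iff_bijective.1 hinj), fun i => ⟨h i, e i⟩⟩

/-- The trace given by a splitting family. -/
def splitCorr {α : Fin q → GL (Fin 2) ℚ} (hs : Splits N M α) (hi : ClassInj N α) :
    Corr G0[N] G0[M] where
  ι := Fin q
  α := α
  exists_perm := exists_perm_of_splits hs hi

/-- Splitting families commute with the good correspondences. -/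
theorem splitCorr_Tc {α : Fin q → GL (Fin 2) ℚ} (hs : Splits N M α) (hi : ClassInj N α)
    (hc : ConjInt N α) (hMN : M ∣ N) {ℓ : ℕ} [hℓ : Fact ℓ.Prime] (hℓN : ¬ ℓ ∣ N) {A : Type*}
    [AddCommGroup A] (z : Hom1 G0[N] A) :
    (Tc M ⊤ ℓ).act ((splitCorr hs hi).act z) = (splitCorr hs hi).act ((Tc N ⊤ ℓ).act z) := by
  classical
  have hℓM : ¬ ℓ ∣ M := fun h => hℓN (h.trans hMN)
  have hunit : IsUnit ((ℓ : ℤ) : ZMod N) := by
    rw [Int.cast_natCast, ← ZMod.coe_unitOfCoprime ℓ (hℓ.out.coprime_iff_not_dvd.2 hℓN)]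
    exact Units.isUnit _
  rw [← Corr.comp_act, ← Corr.comp_act]
  refine Corr.Same.act_eq ?_ z
  have h1 : ∀ x : Fin q × RIdx M ℓ, ∃ (y : RIdx N ℓ × Fin q) (h : G0[N]),
      α x.1 * gl (rep M ℓ x.2) = glQ h * (gl (rep N ℓ y.1) * α y.2) := fun x => by
    obtain ⟨s, Y, hY, e⟩ := hs ℓ hunit _ (FA.HeckeH1.rep_mem hℓ.out ⊤ x.2) x.1
    obtain ⟨k, h, e'⟩ := FA.HeckeH1.exists_class hℓ.out hY
    exact ⟨(k, s), h, by rw [e, e', mul_assoc]⟩
  choose y h e using h1
  have hy : Function.Injective y := fun x x' hxx => by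
    have e1 : α x.1 * gl (rep M ℓ x.2) =
        glQ ((h x * (h x')⁻¹ : G0[N]) : SL(2, ℤ)) * (α x'.1 * gl (rep M ℓ x'.2)) := by
      rw [e x, e x', hxx, Subgroup.coe_mul, map_mul, Subgroup.coe_inv, map_inv]
      group
    obtain ⟨g, hg⟩ := hc x.1 x'.1 _ (h x * (h x')⁻¹).2
    have e2 : gl (rep M ℓ x.2) = glQ g * gl (rep M ℓ x'.2) := by
      rw [← mul_assoc, hg, mul_assoc] at e1
      exact mul_left_cancel e1
    have hi2 : x.2 = x'.2 := FA.HeckeH1.rep_class_inj hℓ.out e2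
    rw [hi2, ← mul_assoc] at e1
    exact Prod.ext (hi _ _ _ (h x * (h x')⁻¹).2 (mul_right_cancel e1)) hi2
  have hcard : Fintype.card (Fin q × RIdx M ℓ) = Fintype.card (RIdx N ℓ × Fin q) := by
    rw [Fintype.card_prod, Fintype.card_prod, mul_comm]
    refine congrArg (· * _) (Fintype.card_congr ?_)
    exact Equiv.subtypeEquivRight fun x => iff_of_true (fun _ => hℓM) (fun _ => hℓN)
  exact ⟨Equiv.ofBijective y ((Fintype.bijective_iff_injective_and_card y).2 ⟨hy, hcard⟩),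
    fun x => ⟨h x, e x⟩⟩

end generic

theorem lowU_mul (a b : ℤ) : lowU a * lowU b = lowU (a + b) := by
  refine Subtype.ext ?_
  ext i j
  fin_cases i <;> fin_cases j <;> simp [lowU, Matrix.mul_apply, Fin.sum_univ_two]

theorem upU_mul (a b : ℤ) : upU a * upU b = upU (a + b) := by
  refine Subtype.ext ?_
  ext i j
  fin_cases i <;> fin_cases j <;> simp [upU, Matrix.mul_apply, Fin.sum_univ_two, add_comm]

variable (q M' : ℕ) [hq : Fact q.Prime] [NeZero M']

/-- `diag (1, q)`. -/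
def dq : MatZ := !![1, 0; 0, (q : ℤ)]

theorem dq_det : (dq q).det = q := by simp [dq, det_fin_two]

theorem dq_det_ne : (dq q).det ≠ 0 := by
  rw [dq_det]; exact Int.natCast_ne_zero.2 hq.out.ne_zero

/-- The matrices of the first trace. -/
def lowFam (b : Fin q) : GL (Fin 2) ℚ := glQ (lowU ((b : ℕ) * (q * M' : ℕ)))

/-- The matrices of the second trace. -/
def upFam (b : Fin q) : GL (Fin 2) ℚ := gl (dq q) * glQ (upU (b : ℕ))

variable {q M'}

theorem exists_solve {a c : ℤ} (ha : ¬ (q : ℤ) ∣ a) :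
    ∃ s : Fin q, (q : ℤ) ∣ c - (s : ℕ) * a := by
  have : NeZero q := ⟨hq.out.ne_zero⟩
  refine ⟨⟨((c : ZMod q) * (a : ZMod q)⁻¹).val, ZMod.val_lt _⟩, ?_⟩
  have ha' : (a : ZMod q) ≠ 0 := fun h => ha ((ZMod.intCast_zmod_eq_zero_iff_dvd _ _).1 h)
  rw [← ZMod.intCast_zmod_eq_zero_iff_dvd, Int.cast_sub, Int.cast_mul, Int.cast_natCast,
    ZMod.natCast_zmod_val, inv_mul_cancel_right₀ ha', sub_self]

theorem fin_eq_of_dvd {b b' : Fin q} (h : (q : ℤ) ∣ ((b : ℕ) : ℤ) - (b' : ℕ)) : b = b' := by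
  refine Fin.ext ?_
  have h1 := Int.eq_zero_of_dvd_of_natAbs_lt_natAbs h (by have := b.2; have := b'.2; omega)
  omega

theorem not_dvd_diag {n : ℤ} (hn : IsUnit (n : ZMod (q * q * M'))) {X : MatZ} (hd : X.det = n)
    (hc : ((q * M' : ℕ) : ℤ) ∣ X 1 0) : ¬ (q : ℤ) ∣ X 0 0 ∧ ¬ (q : ℤ) ∣ X 1 1 := by
  have hqn : ¬ (q : ℤ) ∣ n := fun h => by
    have h2 := hn.map (ZMod.castHom (show q ∣ q * q * M' from ⟨q * M', by ring⟩) (ZMod q))
    rw [map_intCast, (ZMod.intCast_zmod_eq_zero_iff_dvd _ _).2 h] at h2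
    exact not_isUnit_zero h2
  have hqc : (q : ℤ) ∣ X 1 0 := (Int.natCast_dvd_natCast.2 (dvd_mul_right q M')).trans hc
  rw [det_fin_two] at hd
  exact ⟨fun h => hqn (hd ▸ dvd_sub (h.mul_right _) (hqc.mul_left _)),
    fun h => hqn (hd ▸ dvd_sub (h.mul_left _) (hqc.mul_left _))⟩

theorem lowFam_splits : Splits (q * q * M') (q * M') (lowFam q M') := by
  intro n hn X hX b
  obtain ⟨-, h11⟩ := not_dvd_diag hn hX.1 hX.2.1
  obtain ⟨c, hc⟩ := hX.2.1
  obtain ⟨s, e, he⟩ := exists_solve (c := (b : ℕ) * X 0 0 + c) h11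
  set L := lowU ((b : ℕ) * (q * M' : ℕ))
  set R := lowU (-((s : ℕ) * (q * M' : ℕ) : ℤ))
  have hR : R * lowU ((s : ℕ) * (q * M' : ℕ)) = 1 := by
    rw [lowU_mul, neg_add_cancel]
    refine Subtype.ext ?_
    ext i j
    fin_cases i <;> fin_cases j <;> simp [lowU]
  have hXd : X.det ≠ 0 := fun h => by
    have := hn
    rw [← hX.1, h, Int.cast_zero, isUnit_zero_iff] at this
    have h2 : (q * q * M' : ℕ) = 1 := ZMod.one_eq_zero_iff.1 this.symm
    exact hq.out.ne_one (Nat.eq_one_of_mul_eq_one_right (mul_assoc q q M' ▸ h2))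
  refine ⟨s, L.1 * X * R.1, dl_top_mk hn ?_ ⟨e - (s : ℕ) * (b : ℕ) * M' * X 0 1, ?_⟩, ?_⟩
  · rw [det_mul, det_mul, L.2, R.2, one_mul, mul_one, hX.1]
  · simp only [L, R, lowU, Matrix.mul_apply, Fin.sum_univ_two]
    simp
    rw [hc]
    push_cast at he ⊢
    linear_combination ((q : ℤ) * M') * he
  · show glQ L * gl X = gl (L.1 * X * R.1) * glQ (lowU _)
    rw [FA.HeckeH1.gl_mul (by rw [det_mul, L.2, one_mul]; exact hXd) (by rw [R.2]; exact one_ne_zero),
      FA.HeckeH1.gl_mul (by rw [L.2]; exact one_ne_zero) hXd, FA.HeckeH1.gl_coe,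
      FA.HeckeH1.gl_coe, mul_assoc, ← map_mul, hR, map_one, mul_one]

theorem lowFam_inj : ClassInj (q * q * M') (lowFam q M') := by
  intro b b' h hh e
  rw [lowFam, lowFam, ← map_mul] at e
  have e' : lowU ((b : ℕ) * (q * M' : ℕ)) * lowU (-((b' : ℕ) * (q * M' : ℕ) : ℤ)) = h := by
    rw [FA.HeckeH1.glQ_injective e, mul_assoc, lowU_mul, add_neg_cancel,
      show lowU 0 = 1 from Subtype.ext (by ext i j; fin_cases i <;> fin_cases j <;> simp [lowU]),
      mul_one]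
  rw [lowU_mul] at e'
  have h1 := FA.HeckeH1.GamH_top_mem.1 hh
  rw [← e'] at h1
  simp only [lowU] at h1
  refine fin_eq_of_dvd ((mul_dvd_mul_iff_right (Int.natCast_ne_zero.2
    (mul_ne_zero hq.out.ne_zero (NeZero.ne M')))).1 ?_)
  rw [← Nat.cast_mul, ← mul_assoc, sub_mul]
  simpa [← sub_eq_add_neg] using h1

theorem lowFam_conj : ConjInt (q * q * M') (lowFam q M') := fun b b' h _ =>
  ⟨(lowU ((b : ℕ) * (q * M' : ℕ)))⁻¹ * h * lowU ((b' : ℕ) * (q * M' : ℕ)), by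
    simp only [lowFam, map_mul, map_inv, mul_assoc, mul_inv_cancel_left]⟩

/-- Conjugation by `diag (1, q)` on integral matrices with `q` dividing the upper right entry. -/
theorem dq_conj {Z : MatZ} {e : ℤ} (he : Z 0 1 = (q : ℤ) * e) :
    dq q * Z = !![Z 0 0, e; (q : ℤ) * Z 1 0, Z 1 1] * dq q := by
  ext i j
  fin_cases i <;> fin_cases j <;> simp [dq, Matrix.mul_apply, Fin.sum_univ_two, he] <;> ring

theorem upFam_splits : Splits (q * q * M') (q * M') (upFam q) := by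
  intro n hn X hX b
  obtain ⟨h00, -⟩ := not_dvd_diag hn hX.1 hX.2.1
  have hqc : (q : ℤ) ∣ X 1 0 := (Int.natCast_dvd_natCast.2 (dvd_mul_right q M')).trans hX.2.1
  obtain ⟨s, hs⟩ := exists_solve (c := X 0 1 + (b : ℕ) * X 1 1)
    (a := X 0 0 + (b : ℕ) * X 1 0) fun h => h00 ((dvd_add_left (hqc.mul_left _)).1 h)
  set U := upU ((b : ℕ) : ℤ)
  set R := upU (-((s : ℕ) : ℤ))
  have hR : R * upU ((s : ℕ) : ℤ) = 1 := by
    rw [upU_mul, neg_add_cancel]
    refine Subtype.ext ?_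
    ext i j
    fin_cases i <;> fin_cases j <;> simp [upU]
  obtain ⟨e, he⟩ : (q : ℤ) ∣ (U.1 * X * R.1) 0 1 := by
    convert hs using 1
    rw [Matrix.mul_apply, Fin.sum_univ_two, Matrix.mul_apply, Matrix.mul_apply, Fin.sum_univ_two,
      Fin.sum_univ_two]
    simp [U, R, upU]
    ring
  set Y : MatZ := !![(U.1 * X * R.1) 0 0, e; (q : ℤ) * (U.1 * X * R.1) 1 0, (U.1 * X * R.1) 1 1]
  have hdet : (U.1 * X * R.1).det = n := by
    rw [det_mul, det_mul, U.2, R.2, one_mul, mul_one, hX.1]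
  have hYd : Y.det = n := by
    rw [← hdet, det_fin_two, det_fin_two]
    simp only [Y, of_apply, cons_val', cons_val_zero, cons_val_one, cons_val_fin_one, he]
    ring
  have hn0 : n ≠ 0 := fun h => by
    have := hn
    rw [h, Int.cast_zero, isUnit_zero_iff] at this
    have h2 : (q * q * M' : ℕ) = 1 := ZMod.one_eq_zero_iff.1 this.symm
    exact hq.out.ne_one (Nat.eq_one_of_mul_eq_one_right (mul_assoc q q M' ▸ h2))
  refine ⟨s, Y, dl_top_mk hn hYd ?_, ?_⟩
  · obtain ⟨c, hc⟩ := hX.2.1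
    refine ⟨c, ?_⟩
    simp only [Y, of_apply, cons_val', cons_val_zero, cons_val_one, cons_val_fin_one]
    rw [Matrix.mul_apply, Fin.sum_univ_two, Matrix.mul_apply, Matrix.mul_apply, Fin.sum_univ_two,
      Fin.sum_univ_two]
    simp [U, R, upU, hc]
    ring
  · have hk := congrArg gl (dq_conj he)
    rw [FA.HeckeH1.gl_mul (dq_det_ne q) (by rw [hdet]; exact hn0),
      FA.HeckeH1.gl_mul (by rw [hYd]; exact hn0) (dq_det_ne q)] at hk
    show gl (dq q) * glQ U * gl X = gl Y * (gl (dq q) * glQ (upU _))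
    rw [← mul_assoc, ← hk, FA.HeckeH1.gl_mul (by rw [det_mul, U.2, one_mul, hX.1]; exact hn0)
      (by rw [R.2]; exact one_ne_zero), FA.HeckeH1.gl_mul (by rw [U.2]; exact one_ne_zero)
      (by rw [hX.1]; exact hn0), FA.HeckeH1.gl_coe, FA.HeckeH1.gl_coe]
    simp only [mul_assoc, ← map_mul, hR, map_one, mul_one]

theorem exists_dq_inv {h : SL(2, ℤ)} (hh : h ∈ G0[q * q * M']) :
    ∃ g : SL(2, ℤ), glQ h * gl (dq q) = gl (dq q) * glQ g ∧ g.1 0 1 = (q : ℤ) * h.1 0 1 := by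
  obtain ⟨c, hc⟩ := FA.HeckeH1.GamH_top_mem.1 hh
  have hd := h.2
  rw [det_fin_two, hc] at hd
  let g : SL(2, ℤ) := ⟨!![h.1 0 0, (q : ℤ) * h.1 0 1; (q * M' : ℕ) * c, h.1 1 1], by
    rw [det_fin_two_of]; push_cast at hd ⊢; linear_combination hd⟩
  refine ⟨g, ?_, by simp [g]⟩
  rw [← FA.HeckeH1.gl_coe, ← FA.HeckeH1.gl_coe g, ← FA.HeckeH1.gl_mul (by rw [h.2]; exact one_ne_zero)
    (dq_det_ne q), ← FA.HeckeH1.gl_mul (dq_det_ne q) (by rw [g.2]; exact one_ne_zero)]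
  congr 1
  ext i j
  fin_cases i <;> fin_cases j <;> simp [g, dq, Matrix.mul_apply, Fin.sum_univ_two, hc] <;> ring

theorem upFam_inj : ClassInj (q * q * M') (upFam q) := by
  intro b b' h hh e
  obtain ⟨g, hg, hg01⟩ := exists_dq_inv hh
  rw [upFam, upFam, ← mul_assoc, hg, mul_assoc, ← map_mul] at e
  have e' : g = upU ((b : ℕ) : ℤ) * upU (-((b' : ℕ) : ℤ)) := by
    rw [FA.HeckeH1.glQ_injective (mul_left_cancel e), mul_assoc, upU_mul, add_neg_cancel,
      show upU 0 = 1 from Subtype.ext (by ext i j; fin_cases i <;> fin_cases j <;> simp [upU]),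
      mul_one]
  rw [upU_mul] at e'
  refine fin_eq_of_dvd ⟨h.1 0 1, ?_⟩
  rw [← hg01, e']
  simp [upU, sub_eq_add_neg]

theorem upFam_conj : ConjInt (q * q * M') (upFam q) := fun b b' h hh => by
  obtain ⟨g, hg, -⟩ := exists_dq_inv hh
  refine ⟨(upU ((b : ℕ) : ℤ))⁻¹ * g * upU ((b' : ℕ) : ℤ), ?_⟩
  simp only [upFam, map_mul, map_inv, ← mul_assoc, hg, mul_inv_cancel_right]

variable (q M')

/-- The first trace. -/
def lowPush : Corr G0[q * q * M'] G0[q * M'] := splitCorr lowFam_splits lowFam_inj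

/-- The second trace. -/
def upPush : Corr G0[q * q * M'] G0[q * M'] := splitCorr upFam_splits upFam_inj

variable {q M'}

/-- `zConj` is conjugation by `diag (1, q)`. -/
theorem dq_zConj (x : gsp q M') :
    gl (dq q) * glQ (x : SL(2, ℤ)) = glQ (zConj x : SL(2, ℤ)) * gl (dq q) := by
  rw [← FA.HeckeH1.gl_coe, ← FA.HeckeH1.gl_coe (zConj x : SL(2, ℤ)),
    ← FA.HeckeH1.gl_mul (dq_det_ne q) (by rw [(x : SL(2, ℤ)).2]; exact one_ne_zero),
    ← FA.HeckeH1.gl_mul (by rw [(zConj x : SL(2, ℤ)).2]; exact one_ne_zero) (dq_det_ne q)]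
  congr 1
  obtain ⟨e, he⟩ := x.2.1
  have hq0 : (q : ℤ) ≠ 0 := Int.natCast_ne_zero.2 hq.out.ne_zero
  ext i j
  fin_cases i <;> fin_cases j <;>
    simp [dq, zConj, Matrix.mul_apply, Fin.sum_univ_two, he,
      Int.mul_ediv_cancel_left _ hq0] <;> ring

variable {A : Type} [AddCommGroup A] (z : Hom1 G0[q * q * M'] A)

theorem zConj_mem (x : gsp q M') : (zConj x : SL(2, ℤ)) ∈ G0[q * q * M'] := by
  rw [FA.HeckeH1.GamH_top]
  exact (zConj x).2

/-- A class as a function on `Γ₀`. -/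
def asFun (z : Hom1 G0[q * q * M'] A) (g : Gamma0 (q * q * M')) : A :=
  hv z ⟨g, by rw [FA.HeckeH1.GamH_top]; exact g.2⟩

/-- **Classes killed by both traces satisfy `TracesVanish`.** -/
theorem tracesVanish_of_push (h₁ : (lowPush q M').act z = 0) (h₂ : (upPush q M').act z = 0) :
    TracesVanish (asFun z) := by
  intro γ
  constructor
  · have hmem : (γ : SL(2, ℤ)) ∈ G0[q * M'] :=
      FA.HeckeH1.GamH_top_mem.2 (gamma_le_gsp q M' γ.2).2
    have e := (upPush q M').act_eq z ⟨γ, hmem⟩ 1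
      (fun b : Fin q => ⟨_, zConj_mem ⟨_, gamma_le_gsp q M' (gConj (upU (b : ℕ)) γ).2⟩⟩)
      (fun (b : Fin q) => by
        show gl (dq q) * glQ (upU ((b : ℕ) : ℤ)) * glQ (γ : SL(2, ℤ)) =
          _ * (gl (dq q) * glQ (upU ((b : ℕ) : ℤ)))
        have hg : (upU ((b : ℕ) : ℤ)) * (γ : SL(2, ℤ)) =
            (gConj (upU ((b : ℕ) : ℤ)) γ : SL(2, ℤ)) * upU ((b : ℕ) : ℤ) := by
          simp [gConj, mul_assoc]
        have hg' := congrArg glQ hg
        simp only [map_mul] at hg'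
        rw [← mul_assoc _ (gl (dq q)), ← dq_zConj, mul_assoc, hg', ← mul_assoc])
    rw [h₂] at e
    rw [Finset.sum_range]
    exact e.symm
  · have hz : (zConj ⟨γ, gamma_le_gsp q M' γ.2⟩ : SL(2, ℤ)) ∈ G0[q * M'] :=
      FA.HeckeH1.GamH_top_le_of_dvd ⟨q, by ring⟩ (zConj_mem _)
    have e := (lowPush q M').act_eq z ⟨_, hz⟩ 1
      (fun b : Fin q =>
        ⟨_, zConj_mem ⟨_, gamma_le_gsp q M' (gConj (lowU ((b : ℕ) * M')) γ).2⟩⟩)
      (fun (b : Fin q) => by
        have hL : glQ (lowU ((b : ℕ) * (q * M' : ℕ))) * gl (dq q) =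
            gl (dq q) * glQ (lowU ((b : ℕ) * M')) := by
          rw [← FA.HeckeH1.gl_coe, ← FA.HeckeH1.gl_coe (lowU ((b : ℕ) * M')),
            ← FA.HeckeH1.gl_mul (by rw [(lowU _).2]; exact one_ne_zero) (dq_det_ne q),
            ← FA.HeckeH1.gl_mul (dq_det_ne q) (by rw [(lowU _).2]; exact one_ne_zero)]
          congr 1
          ext i j
          fin_cases i <;> fin_cases j <;>
            simp [dq, lowU, Matrix.mul_apply, Fin.sum_univ_two] <;> ring
        have key : glQ (lowU ((b : ℕ) * (q * M' : ℕ))) *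
              glQ (zConj ⟨γ, gamma_le_gsp q M' γ.2⟩ : SL(2, ℤ)) =
            glQ (zConj ⟨_, gamma_le_gsp q M' (gConj (lowU ((b : ℕ) * M')) γ).2⟩ : SL(2, ℤ)) *
              glQ (lowU ((b : ℕ) * (q * M' : ℕ))) := by
          apply mul_right_cancel (b := gl (dq q))
          have hg : (lowU ((b : ℕ) * M')) * (γ : SL(2, ℤ)) =
              (gConj (lowU ((b : ℕ) * M')) γ : SL(2, ℤ)) * lowU ((b : ℕ) * M') := by
            simp [gConj, mul_assoc]
          have hg' := congrArg glQ hg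
          simp only [map_mul] at hg'
          rw [mul_assoc, ← dq_zConj, ← mul_assoc, hL, mul_assoc, mul_assoc (glQ _) _ (gl _), hL,
            ← mul_assoc (glQ _), ← dq_zConj, mul_assoc (gl _)]
          exact congrArg _ hg'
        exact key)
    rw [h₁] at e
    rw [Finset.sum_range]
    exact e.symm

end FA.Carayol

end
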